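/-
Programme MZ (S15), chapter CONST (helper9): **the Jordan–Hölder constituents of an Eisenstein
Galois module are `ℤ/l` or `μ_l`** — abstract part.

`V` a finite `𝔽_l`-vector space with a linear action of a group `G`, `χ : G →* 𝔽_l` a character.

* `quad_of_frobenius` : if the relation `(φ - 1)(φ - χ φ) = 0` holds on `V` for the elements `φ` of
  a set `Φ` ("Frobenius elements": Eichler–Shimura with `T_q ≡ 1 + q`), and every `g` acts on `V`
  as a power `φ ^ j` of some `φ ∈ Φ` with `χ g = χ φ ^ j` (generator form of Chebotarev), then the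
  relation `(g - 1)(g - χ g) = 0` holds for every `g ∈ G`.
* `trivial_or_character` : if moreover `V` is simple, `G` acts on `V` trivially or through `χ`.
* `card_eq` : and then `V` has exactly `l` elements.
-/
import Mathlib

set_option autoImplicit false

namespace Fermat.Agent.MZ.CONST.Constituents9

open Finset

section Quad

variable {k V : Type*} [Field k] [AddCommGroup V] [Module k V]

/-- the quadratic relation `(f - 1)(f - a) = 0` for an endomorphism `f` and a scalar `a`. -/
def Quad (f : Module.End k V) (a : k) : Prop :=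
  (f - 1) * (f - algebraMap k (Module.End k V) a) = 0

theorem quad_pow {f : Module.End k V} {a : k} (h : Quad f a) (j : ℕ) : Quad (f ^ j) (a ^ j) := by
  unfold Quad at h ⊢
  have h1 : f ^ j - 1 = (∑ i ∈ range j, f ^ i) * (f - 1) := (geom_sum_mul f j).symm
  have hc : Commute f (algebraMap k (Module.End k V) a) := (Algebra.commutes a f).symm
  have h2 : f ^ j - algebraMap k (Module.End k V) (a ^ j) =
      (f - algebraMap k (Module.End k V) a) *
        (∑ i ∈ range j, f ^ i * (algebraMap k (Module.End k V) a) ^ (j - 1 - i)) := by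
    rw [map_pow]
    exact (hc.mul_geom_sum₂ j).symm
  rw [h1, h2, mul_assoc, ← mul_assoc (f - 1), h, zero_mul, mul_zero]

theorem quad_apply {f : Module.End k V} {a : k} (h : Quad f a) (v : V) :
    f (f v - a • v) = f v - a • v := by
  have := LinearMap.congr_fun h v
  simp only [Module.End.mul_apply, LinearMap.sub_apply, Module.End.one_apply,
    Module.algebraMap_end_apply, LinearMap.zero_apply] at this
  exact sub_eq_zero.mp this

end Quad

section Action

variable {l : ℕ} [Fact l.Prime]
variable {G V : Type*} [Group G] [AddCommGroup V] [Module (ZMod l) V] [DistribMulAction G V]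
  [SMulCommClass G (ZMod l) V]

/-- the action of `g` as an `𝔽_l`-linear endomorphism. -/
def act (g : G) : Module.End (ZMod l) V := DistribSMul.toLinearMap (ZMod l) V g

@[simp] theorem act_apply (g : G) (v : V) : act (l := l) g v = g • v := rfl

theorem act_mul (g h : G) : act (l := l) (V := V) (g * h) = act g * act h := by
  ext v; simp [mul_smul]

theorem act_one : act (l := l) (V := V) (1 : G) = 1 := by
  ext v; simp

theorem act_pow (g : G) (j : ℕ) : act (l := l) (V := V) (g ^ j) = act g ^ j := by
  induction j with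
  | zero => rw [pow_zero, pow_zero, act_one]
  | succ n ih => rw [pow_succ, pow_succ, act_mul, ih]

/-- the relation `(g - 1)(g - χ g) = 0` on `V`. -/
def QuadAt (χ : G →* ZMod l) (g : G) : Prop :=
  Quad (act (l := l) (V := V) g) (χ g)

/-- unfolded form: `g (g v - χ g v) = g v - χ g v`. -/
theorem QuadAt.apply {χ : G →* ZMod l} {g : G} (h : QuadAt (V := V) χ g) (v : V) :
    g • (g • v - χ g • v) = g • v - χ g • v :=
  quad_apply h v

theorem quadAt_of_forall {χ : G →* ZMod l} {g : G}
    (h : ∀ v : V, g • (g • v - χ g • v) = g • v - χ g • v) : QuadAt (V := V) χ g := by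
  unfold QuadAt Quad
  ext v
  simp only [Module.End.mul_apply, LinearMap.sub_apply, Module.End.one_apply,
    Module.algebraMap_end_apply, LinearMap.zero_apply, act_apply]
  exact sub_eq_zero.mpr (h v)

/-- **From Frobenius elements to all elements** (generator form of Chebotarev). -/
theorem quad_of_frobenius (χ : G →* ZMod l) (Φ : Set G)
    (hΦ : ∀ φ ∈ Φ, QuadAt (V := V) χ φ)
    (hgen : ∀ g : G, ∃ φ ∈ Φ, ∃ j : ℕ, (∀ v : V, g • v = φ ^ j • v) ∧ χ g = χ φ ^ j) (g : G) :
    QuadAt (V := V) χ g := by
  obtain ⟨φ, hφ, j, hj, hχ⟩ := hgen g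
  have h1 : act (l := l) (V := V) g = act φ ^ j := by
    rw [← act_pow]
    ext v
    exact hj v
  unfold QuadAt
  rw [h1, hχ]
  exact quad_pow (hΦ φ hφ) j

end Action

/-- `V` is a simple `G`-module. -/
structure IsSimpleAction (G V : Type*) [Group G] [AddCommGroup V] [DistribMulAction G V] :
    Prop where
  nontrivial : Nontrivial V
  eq_bot_or_eq_top : ∀ U : AddSubgroup V, (∀ g : G, ∀ v ∈ U, g • v ∈ U) → U = ⊥ ∨ U = ⊤

section Simple

variable {l : ℕ} [hl : Fact l.Prime]
variable {G V : Type*} [Group G] [AddCommGroup V] [Module (ZMod l) V] [DistribMulAction G V]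
  [SMulCommClass G (ZMod l) V]

variable (χ : G →* ZMod l)

theorem natCast_smul_eq_zero (v : V) : l • v = 0 := by
  rw [← Nat.cast_smul_eq_nsmul (ZMod l), ZMod.natCast_self, zero_smul]

/-- an element of the kernel of `χ` satisfying the quadratic relation has order dividing `l` on
`V`. -/
theorem pow_l_smul_of_quad {h : G} (hχ : χ h = 1) (hq : QuadAt (V := V) χ h) (v : V) :
    h ^ l • v = v := by
  -- `N = h - 1` satisfies `N (N v) = 0`
  have hN : ∀ v : V, h • (h • v - v) = h • v - v := by
    intro v
    have := hq.apply v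
    rwa [hχ, one_smul] at this
  have key : ∀ j : ℕ, ∀ v : V, h ^ j • v = v + j • (h • v - v) := by
    intro j
    induction j with
    | zero => intro v; simp
    | succ n ih =>
      intro v
      rw [pow_succ', mul_smul, ih, smul_add, smul_comm h n, hN, succ_nsmul]
      abel
  rw [key l v, natCast_smul_eq_zero, add_zero]

variable [Finite V]

/-- the kernel of `χ` acts trivially on a simple module on which the quadratic relations hold. -/
theorem ker_acts_trivially (hS : IsSimpleAction G V) (hq : ∀ g : G, QuadAt (V := V) χ g)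
    {h : G} (hh : χ h = 1) (v : V) : h • v = v := by
  classical
  have := hS.nontrivial
  -- the image `K` of `ker χ` in the permutation group of `V` is an `l`-group
  let H : Subgroup G := χ.ker
  let K : Subgroup (Equiv.Perm V) := (MulAction.toPermHom H V).range
  have hK : IsPGroup l K := by
    rintro ⟨k, ⟨⟨h', hh'⟩, rfl⟩⟩
    refine ⟨1, Subtype.ext ?_⟩
    rw [pow_one, Subgroup.coe_pow, Subgroup.coe_one, ← map_pow]
    ext w
    have h1 : χ h' = 1 := MonoidHom.mem_ker.mp hh'
    show (⟨h', hh'⟩ ^ l : H) • w = w
    exact pow_l_smul_of_quad χ h1 (hq h') w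
  -- `l ∣ |V|`
  obtain ⟨v₀, hv₀⟩ := exists_ne (0 : V)
  have hcard : l ∣ Nat.card V := by
    have h1 : addOrderOf v₀ = l :=
      addOrderOf_eq_prime (natCast_smul_eq_zero v₀) hv₀
    rw [← h1]
    exact addOrderOf_dvd_natCard v₀
  have h0 : (0 : V) ∈ MulAction.fixedPoints K V := by
    rintro ⟨k, ⟨h', rfl⟩⟩
    show h' • (0 : V) = 0
    exact smul_zero _
  obtain ⟨b, hb, hb0⟩ := hK.exists_fixed_point_of_prime_dvd_card_of_fixed_point V hcard h0
  -- the fixed vectors of `ker χ` form a `G`-stable subgroup
  let U : AddSubgroup V :=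
    { carrier := {w | ∀ h' : G, χ h' = 1 → h' • w = w}
      zero_mem' := fun h' _ => smul_zero _
      add_mem' := fun {a c} ha hc h' hh' => by rw [smul_add, ha h' hh', hc h' hh']
      neg_mem' := fun {a} ha h' hh' => by rw [smul_neg, ha h' hh'] }
  have hU : ∀ g : G, ∀ w ∈ U, g • w ∈ U := by
    intro g w hw h' hh'
    have h2 : χ (g⁻¹ * h' * g) = 1 := by
      have hg : χ g⁻¹ * χ g = 1 := by rw [← map_mul, inv_mul_cancel, map_one]
      rw [map_mul, map_mul, hh', mul_one, hg]
    have h3 := hw _ h2
    calc h' • g • w = g • (g⁻¹ * h' * g) • w := by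
          rw [← mul_smul, ← mul_smul, mul_assoc, mul_inv_cancel_left]
      _ = g • w := by rw [h3]
  have hbU : b ∈ U := by
    intro h' hh'
    have := hb ⟨MulAction.toPermHom H V ⟨h', MonoidHom.mem_ker.mpr hh'⟩, ⟨_, rfl⟩⟩
    exact this
  rcases hS.eq_bot_or_eq_top U hU with hbot | htop
  · exfalso
    rw [hbot, AddSubgroup.mem_bot] at hbU
    exact hb0 hbU.symm
  · have : v ∈ U := by rw [htop]; exact AddSubgroup.mem_top v
    exact this h hh

/-- **A simple module with the quadratic relations: the action is trivial or through `χ`.** -/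
theorem trivial_or_character (hS : IsSimpleAction G V) (hq : ∀ g : G, QuadAt (V := V) χ g) :
    (∀ (g : G) (v : V), g • v = v) ∨ (∀ (g : G) (v : V), g • v = χ g • v) := by
  classical
  have hker := fun {h : G} (hh : χ h = 1) (v : V) => ker_acts_trivially χ hS hq hh v
  have hinv : ∀ g : G, χ g⁻¹ * χ g = 1 := fun g => by rw [← map_mul, inv_mul_cancel, map_one]
  -- each `g` acts as `1` or as `χ g`
  have hdich : ∀ g : G, (∀ v : V, g • v = v) ∨ (∀ v : V, g • v = χ g • v) := by
    intro g
    let U : AddSubgroup V :=
      { carrier := {w | g • w = w}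
        zero_mem' := smul_zero _
        add_mem' := fun {a c} ha hc => by
          show g • (a + c) = a + c
          rw [smul_add, ha, hc]
        neg_mem' := fun {a} ha => by
          show g • (-a) = -a
          rw [smul_neg, ha] }
    have hU : ∀ g' : G, ∀ w ∈ U, g' • w ∈ U := by
      intro g' w hw
      show g • g' • w = g' • w
      -- `g g' = g' g c` with `c` a commutator, in the kernel of `χ`
      have hc : χ (g⁻¹ * g'⁻¹ * g * g') = 1 := by
        rw [map_mul, map_mul, map_mul, mul_comm (χ g⁻¹) (χ g'⁻¹), mul_assoc (χ g'⁻¹), hinv g,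
          mul_one, hinv g']
      have h1 : g * g' = g' * g * (g⁻¹ * g'⁻¹ * g * g') := by group
      calc g • g' • w = (g' * g * (g⁻¹ * g'⁻¹ * g * g')) • w := by rw [← mul_smul, h1]
        _ = g' • g • w := by rw [mul_smul, hker hc, mul_smul]
        _ = g' • w := by rw [hw]
    rcases hS.eq_bot_or_eq_top U hU with hbot | htop
    · right
      intro v
      have h1 : g • v - χ g • v ∈ U := (hq g).apply v
      rw [hbot, AddSubgroup.mem_bot] at h1
      exact sub_eq_zero.mp h1
    · left
      intro v
      have : v ∈ U := by rw [htop]; exact AddSubgroup.mem_top v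
      exact this
  -- a group is not the union of two proper subgroups
  by_contra hcon
  rw [not_or] at hcon
  obtain ⟨hA, hB⟩ := hcon
  push Not at hA hB
  obtain ⟨a, va, hva⟩ := hA
  obtain ⟨b, vb, hvb⟩ := hB
  have haB : ∀ v : V, a • v = χ a • v := (hdich a).resolve_left (fun h => hva (h va))
  have hbA : ∀ v : V, b • v = v := (hdich b).resolve_right (fun h => hvb (h vb))
  rcases hdich (a * b) with h | h
  · -- `a b` trivial and `b` trivial ⟹ `a` trivial
    apply hva
    have := h va
    rwa [mul_smul, hbA] at this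
  · -- `a b` acts by `χ (a b)`, `a` by `χ a` ⟹ `b` acts by `χ b`
    apply hvb
    have h1 := h vb
    rw [mul_smul, haB, map_mul, mul_smul] at h1
    -- `χ a • (b • vb) = χ a • (χ b • vb)` and `χ a` is invertible
    have h2 : (χ a⁻¹ * χ a) • (b • vb) = (χ a⁻¹ * χ a) • (χ b • vb) := by
      rw [mul_smul, mul_smul, h1]
    rw [hinv a, one_smul, one_smul] at h2
    exact h2

/-- **Such a simple module has exactly `l` elements.** -/
theorem card_eq (hS : IsSimpleAction G V) (hq : ∀ g : G, QuadAt (V := V) χ g) :
    Nat.card V = l := by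
  classical
  have := hS.nontrivial
  obtain ⟨v₀, hv₀⟩ := exists_ne (0 : V)
  have hstab : ∀ U : AddSubgroup V, ∀ g : G, ∀ v ∈ U, g • v ∈ U := by
    intro U g v hv
    rcases trivial_or_character χ hS hq with h | h
    · rw [h g v]; exact hv
    · rw [h g v, ← ZMod.natCast_zmod_val (χ g), Nat.cast_smul_eq_nsmul]
      exact U.nsmul_mem hv _
  have htop : AddSubgroup.zmultiples v₀ = ⊤ := by
    rcases hS.eq_bot_or_eq_top _ (hstab (AddSubgroup.zmultiples v₀)) with h | h
    · exfalso
      have : v₀ ∈ AddSubgroup.zmultiples v₀ := AddSubgroup.mem_zmultiples v₀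
      rw [h, AddSubgroup.mem_bot] at this
      exact hv₀ this
    · exact h
  have h1 : addOrderOf v₀ = l := addOrderOf_eq_prime (natCast_smul_eq_zero v₀) hv₀
  rw [← h1, ← Nat.card_zmultiples v₀, htop]
  exact (Nat.card_congr (AddSubgroup.topEquiv (G := V)).toEquiv).symm

end Simple

end Fermat.Agent.MZ.CONST.Constituents9
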