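/-
Programme MZ (S15), chapter CONST (helper9): **sub-quotients of a `G`-module, without module
structures**: for `G`-stable subgroups `A ≤ B` of an abelian group `X` with a `G`-action, the
quotient `↥B ⧸ A.addSubgroupOf B` as a `G`-module, and the dictionary between its `G`-stable
subgroups and the `G`-stable subgroups between `A` and `B`.
-/
import Mathlib

set_option autoImplicit false

namespace Fermat.Agent.MZ.CONST.SubQuot9

variable {G X : Type*} [Group G] [AddCommGroup X] [DistribMulAction G X]

/-- `U` is stable under the action of `G`. -/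
def Stable (G : Type*) {X : Type*} [Group G] [AddCommGroup X] [DistribMulAction G X]
    (U : AddSubgroup X) : Prop :=
  ∀ g : G, ∀ v ∈ U, g • v ∈ U

theorem stable_top : Stable G (⊤ : AddSubgroup X) := fun _ _ _ => AddSubgroup.mem_top _

theorem stable_bot : Stable G (⊥ : AddSubgroup X) := fun g v hv => by
  rw [AddSubgroup.mem_bot] at hv ⊢
  rw [hv, smul_zero]

/-- the restricted action on a stable subgroup. -/
@[reducible] def subAct (B : AddSubgroup X) (hB : Stable G B) : DistribMulAction G ↥B where
  smul g v := ⟨g • (v : X), hB g v v.2⟩
  one_smul v := Subtype.ext (one_smul G (v : X))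
  mul_smul g h v := Subtype.ext (mul_smul g h (v : X))
  smul_zero g := Subtype.ext (smul_zero g)
  smul_add g v w := Subtype.ext (smul_add g (v : X) (w : X))

/-- the quotient action. -/
@[reducible] def quotAct {Y : Type*} [AddCommGroup Y] [DistribMulAction G Y] (A' : AddSubgroup Y)
    (hA : Stable G A') : DistribMulAction G (Y ⧸ A') where
  smul g := QuotientAddGroup.map A' A' (DistribSMul.toAddMonoidHom Y g) (fun v hv => hA g v hv)
  one_smul := by
    intro v
    induction v using QuotientAddGroup.induction_on with
    | H v =>
      show QuotientAddGroup.map A' A' _ _ (v : Y ⧸ A') = _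
      rw [QuotientAddGroup.map_mk]
      simp
  mul_smul := by
    intro g h v
    induction v using QuotientAddGroup.induction_on with
    | H v =>
      show QuotientAddGroup.map A' A' _ _ (v : Y ⧸ A') =
        QuotientAddGroup.map A' A' _ _ (QuotientAddGroup.map A' A' _ _ (v : Y ⧸ A'))
      rw [QuotientAddGroup.map_mk, QuotientAddGroup.map_mk, QuotientAddGroup.map_mk]
      simp [mul_smul]
  smul_zero g := map_zero _
  smul_add g v w := map_add _ v w

theorem quotAct_mk {Y : Type*} [AddCommGroup Y] [DistribMulAction G Y] (A' : AddSubgroup Y)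
    (hA : Stable G A') (g : G) (v : Y) :
    (letI := quotAct A' hA; g • (v : Y ⧸ A')) = ((g • v : Y) : Y ⧸ A') := rfl

end Fermat.Agent.MZ.CONST.SubQuot9
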