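/-
Programme MZ (S15), chapter CONST (helper9): **the sub-quotient `B / A` of a `G`-module `X` for
`G`-stable subgroups `A ≤ B` with `l • B ≤ A`**, bundled (`Pair`), with its `𝔽_l[G]`-module
structure and the dictionary with `X`.
-/
import Mathlib
import Fermat.Agent.MZ.CONST.Constituents9
import Fermat.Agent.MZ.CONST.SubQuot9

set_option autoImplicit false

namespace Fermat.Agent.MZ.CONST.Pair9

open Fermat.Agent.MZ.CONST.Constituents9 Fermat.Agent.MZ.CONST.SubQuot9

/-- `G`-stable subgroups `A`, `B` of `X` with `l • B ≤ A` (we do not ask `A ≤ B`). -/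
structure Pair (G X : Type*) [Group G] [AddCommGroup X] [DistribMulAction G X] (l : ℕ) where
  A : AddSubgroup X
  B : AddSubgroup X
  hA : Stable G A
  hB : Stable G B
  hl : ∀ v ∈ B, l • v ∈ A

namespace Pair

variable {G X : Type*} [Group G] [AddCommGroup X] [DistribMulAction G X] {l : ℕ}
variable (S : Pair G X l)

/-- `A ∩ B` as a subgroup of `B`. -/
def A' : AddSubgroup ↥S.B := S.A.addSubgroupOf S.B

instance instActB : DistribMulAction G ↥S.B := subAct S.B S.hB

theorem coe_smul_B (g : G) (v : ↥S.B) : ((g • v : ↥S.B) : X) = g • (v : X) := rfl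

theorem stable_A' : Stable G S.A' := fun g v hv => by
  show ((g • v : ↥S.B) : X) ∈ S.A
  exact S.hA g _ hv

/-- the sub-quotient `B / (A ∩ B)`. -/
def V : Type _ := ↥S.B ⧸ S.A'

instance : AddCommGroup S.V := inferInstanceAs (AddCommGroup (↥S.B ⧸ S.A'))

instance : DistribMulAction G S.V := quotAct S.A' S.stable_A'

/-- the projection `B → B / A`. -/
def proj : ↥S.B →+ S.V := QuotientAddGroup.mk' S.A'

theorem proj_surjective : Function.Surjective S.proj := QuotientAddGroup.mk'_surjective _

theorem proj_eq_zero_iff (v : ↥S.B) : S.proj v = 0 ↔ (v : X) ∈ S.A := by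
  show (QuotientAddGroup.mk' S.A' v) = 0 ↔ _
  rw [QuotientAddGroup.mk'_apply, QuotientAddGroup.eq_zero_iff]
  rfl

theorem smul_proj (g : G) (v : ↥S.B) : g • S.proj v = S.proj (g • v) := rfl

instance [Finite X] : Finite S.V :=
  Finite.of_surjective S.proj S.proj_surjective

theorem l_smul (w : S.V) : l • w = 0 := by
  obtain ⟨v, rfl⟩ := S.proj_surjective w
  rw [← map_nsmul, proj_eq_zero_iff]
  exact S.hl v v.2

instance : Module (ZMod l) S.V := AddCommGroup.zmodModule S.l_smul

instance : SMulCommClass G (ZMod l) S.V :=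
  ⟨fun g c w => ZMod.map_smul (DistribSMul.toAddMonoidHom S.V g) c w⟩

theorem zmod_smul [NeZero l] (c : ZMod l) (w : S.V) : c • w = c.val • w := by
  rw [← Nat.cast_smul_eq_nsmul (ZMod l), ZMod.natCast_zmod_val]

end Pair

end Fermat.Agent.MZ.CONST.Pair9
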