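/-
Programme MZ (S15), chapter CONST (helper9): **an Eisenstein `G`-module has a filtration with
graded pieces of order `l` on which `G` acts trivially or through the character `χ`** —
quotient-free statement.

`X` a finite abelian group with an action of `G`, `χ : G →* 𝔽_l`.  For `g : G`, `D g v` is
`(g - 1)(g - c) v` with `c = (χ g).val`.

* `quad_all_of_frobenius` : relative form of `Constituents9.quad_of_frobenius` (`D φ B ⊆ A` for
  "Frobenius elements" `φ` + generator form of Chebotarev ⟹ `D g B ⊆ A` for all `g`);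
* `step` : for a minimal pair `A < B` of `G`-stable subgroups with `l B ⊆ A` and `D g B ⊆ A`:
  `[B : A] = l` and `G` acts on `B / A` trivially or through `χ`;
* `exists_chain` : the filtration, from a coarse filtration `Y k` with `l Y k ⊆ Y (k+1)` and
  `D φ (Y k) ⊆ Y (k+1)`.
-/
import Mathlib
import Fermat.Agent.MZ.CONST.Pair9

set_option autoImplicit false
set_option linter.unusedSectionVars false

namespace Fermat.Agent.MZ.CONST.Chain9

open Fermat.Agent.MZ.CONST.Constituents9 Fermat.Agent.MZ.CONST.SubQuot9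
  Fermat.Agent.MZ.CONST.Pair9

variable {G X : Type*} [Group G] [AddCommGroup X] [DistribMulAction G X]
variable {l : ℕ} [hl : Fact l.Prime] (χ : G →* ZMod l)

/-- `(g - 1)(g - c) v`, `c = (χ g).val`. -/
def D (g : G) (v : X) : X := g • (g • v - (χ g).val • v) - (g • v - (χ g).val • v)

theorem D_mem {B : AddSubgroup X} (hB : Stable G B) (g : G) {v : X} (hv : v ∈ B) :
    D χ g v ∈ B := by
  have h1 : g • v - (χ g).val • v ∈ B := B.sub_mem (hB g v hv) (B.nsmul_mem hv _)
  exact B.sub_mem (hB g _ h1) h1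

theorem D_add (g : G) (v w : X) : D χ g (v + w) = D χ g v + D χ g w := by
  unfold D
  simp only [smul_add, smul_sub]
  abel

omit hl in
private theorem neZero_of_fact [Fact l.Prime] : NeZero l := ⟨(Fact.out : l.Prime).ne_zero⟩

/-- dictionary: the quadratic relation on the sub-quotient. -/
theorem quadAt_iff (S : Pair G X l) (g : G) :
    QuadAt (V := S.V) χ g ↔ ∀ v ∈ S.B, D χ g v ∈ S.A := by
  have := neZero_of_fact (l := l)
  have key : ∀ v : ↥S.B,
      g • (g • S.proj v - χ g • S.proj v) - (g • S.proj v - χ g • S.proj v) =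
        S.proj ⟨D χ g (v : X), D_mem χ S.hB g v.2⟩ := by
    intro v
    have h1 : (⟨D χ g (v : X), D_mem χ S.hB g v.2⟩ : ↥S.B) =
        g • (g • v - (χ g).val • v) - (g • v - (χ g).val • v) := Subtype.ext rfl
    rw [h1, map_sub, map_sub, ← S.smul_proj, map_sub, ← S.smul_proj, map_nsmul, S.zmod_smul]
  constructor
  · intro h v hv
    have h2 := h.apply (S.proj ⟨v, hv⟩)
    rw [← sub_eq_zero, key ⟨v, hv⟩, S.proj_eq_zero_iff] at h2
    exact h2
  · intro h
    refine quadAt_of_forall fun w => ?_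
    obtain ⟨v, rfl⟩ := S.proj_surjective w
    rw [← sub_eq_zero, key v, S.proj_eq_zero_iff]
    exact h v v.2

/-- **Relative form of the Chebotarev step.** -/
theorem quad_all_of_frobenius (S : Pair G X l) (Φ : Set G)
    (hΦ : ∀ φ ∈ Φ, ∀ v ∈ S.B, D χ φ v ∈ S.A)
    (hgen : ∀ g : G, ∃ φ ∈ Φ, ∃ j : ℕ, (∀ v : X, g • v = φ ^ j • v) ∧ χ g = χ φ ^ j)
    (g : G) : ∀ v ∈ S.B, D χ g v ∈ S.A := by
  rw [← quadAt_iff]
  refine quad_of_frobenius (V := S.V) χ Φ (fun φ hφ => (quadAt_iff χ S φ).mpr (hΦ φ hφ)) ?_ g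
  intro g
  obtain ⟨φ, hφ, j, hj, hχ⟩ := hgen g
  refine ⟨φ, hφ, j, fun w => ?_, hχ⟩
  obtain ⟨v, rfl⟩ := S.proj_surjective w
  rw [S.smul_proj, S.smul_proj]
  congr 1
  exact Subtype.ext (hj (v : X))

section Step

variable [Finite X]

/-- `A < B` is a minimal pair of `G`-stable subgroups. -/
def IsMinimalPair (G : Type*) {X : Type*} [Group G] [AddCommGroup X] [DistribMulAction G X]
    (A B : AddSubgroup X) : Prop :=
  A < B ∧ ∀ C : AddSubgroup X, Stable G C → A ≤ C → C ≤ B → C = A ∨ C = B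

theorem isSimpleAction_of_minimal (S : Pair G X l) (hmin : IsMinimalPair G S.A S.B) :
    IsSimpleAction G S.V := by
  obtain ⟨hlt, hmin⟩ := hmin
  refine ⟨?_, ?_⟩
  · obtain ⟨v, hvB, hvA⟩ := SetLike.exists_of_lt hlt
    refine ⟨⟨S.proj ⟨v, hvB⟩, 0, fun h => hvA ?_⟩⟩
    exact (S.proj_eq_zero_iff ⟨v, hvB⟩).mp h
  · intro U hU
    let C : AddSubgroup X := (U.comap S.proj).map S.B.subtype
    have hCmem : ∀ x : X, x ∈ C ↔ ∃ v : ↥S.B, S.proj v ∈ U ∧ (v : X) = x := by
      intro x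
      simp only [C, AddSubgroup.mem_map, AddSubgroup.mem_comap, AddSubgroup.coe_subtype]
    have hCst : Stable G C := by
      intro g x hx
      obtain ⟨v, hvU, rfl⟩ := (hCmem x).mp hx
      exact (hCmem _).mpr ⟨g • v, by rw [← S.smul_proj]; exact hU g _ hvU, rfl⟩
    have hAC : S.A ≤ C := by
      intro a ha
      refine (hCmem a).mpr ⟨⟨a, hlt.le ha⟩, ?_, rfl⟩
      rw [(S.proj_eq_zero_iff _).mpr ha]
      exact U.zero_mem
    have hCB : C ≤ S.B := by
      intro x hx
      obtain ⟨v, -, rfl⟩ := (hCmem x).mp hx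
      exact v.2
    rcases hmin C hCst hAC hCB with h | h
    · left
      rw [eq_bot_iff]
      intro w hw
      obtain ⟨v, rfl⟩ := S.proj_surjective w
      have : (v : X) ∈ C := (hCmem _).mpr ⟨v, hw, rfl⟩
      rw [h] at this
      rw [AddSubgroup.mem_bot, S.proj_eq_zero_iff]
      exact this
    · right
      rw [eq_top_iff]
      intro w _
      obtain ⟨v, rfl⟩ := S.proj_surjective w
      have : (v : X) ∈ C := by rw [h]; exact v.2
      obtain ⟨v', hv'U, hv'⟩ := (hCmem _).mp this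
      rwa [Subtype.ext hv'] at hv'U

/-- **The step**: a minimal pair on which the quadratic relations hold has index `l`, and `G` acts
on the quotient trivially or through `χ`. -/
theorem step (S : Pair G X l) (hmin : IsMinimalPair G S.A S.B)
    (hq : ∀ g : G, ∀ v ∈ S.B, D χ g v ∈ S.A) :
    S.A.relIndex S.B = l ∧
      ((∀ g : G, ∀ v ∈ S.B, g • v - v ∈ S.A) ∨
        (∀ g : G, ∀ v ∈ S.B, g • v - (χ g).val • v ∈ S.A)) := by
  have := neZero_of_fact (l := l)
  have hS := isSimpleAction_of_minimal S hmin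
  have hq' : ∀ g : G, QuadAt (V := S.V) χ g := fun g => (quadAt_iff χ S g).mpr (hq g)
  refine ⟨card_eq (V := S.V) χ hS hq', ?_⟩
  rcases trivial_or_character (V := S.V) χ hS hq' with h | h
  · left
    intro g v hv
    have h1 := h g (S.proj ⟨v, hv⟩)
    rw [← sub_eq_zero, S.smul_proj, ← map_sub, S.proj_eq_zero_iff] at h1
    exact h1
  · right
    intro g v hv
    have h1 := h g (S.proj ⟨v, hv⟩)
    rw [S.zmod_smul, ← sub_eq_zero, S.smul_proj, ← map_nsmul, ← map_sub,
      S.proj_eq_zero_iff] at h1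
    exact h1

end Step

section Chain

variable [Finite X]

/-- a coarse `G`-stable filtration `Y 0 = ⊤ ⊇ Y 1 ⊇ … ⊇ Y s = ⊥` with `l • Y k ⊆ Y (k+1)` and the
quadratic relation `D φ (Y k) ⊆ Y (k+1)` for the "Frobenius elements" `φ ∈ Φ`
(in the application `Y k = P ^ k • X`, `P` the Eisenstein maximal ideal). -/
structure Coarse (χ : G →* ZMod l) (Φ : Set G) where
  s : ℕ
  Y : ℕ → AddSubgroup X
  top : Y 0 = ⊤
  bot : Y s = ⊥
  anti : ∀ k, Y (k + 1) ≤ Y k
  stable : ∀ k, Stable G (Y k)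
  l_smul : ∀ k, ∀ v ∈ Y k, l • v ∈ Y (k + 1)
  quad : ∀ k, ∀ φ ∈ Φ, ∀ v ∈ Y k, D χ φ v ∈ Y (k + 1)

variable {χ}

/-- on a minimal pair of a module with a coarse filtration, the relations hold. -/
theorem pair_quad {Φ : Set G} (C : Coarse (X := X) χ Φ)
    (hgen : ∀ g : G, ∃ φ ∈ Φ, ∃ j : ℕ, (∀ v : X, g • v = φ ^ j • v) ∧ χ g = χ φ ^ j)
    {A B : AddSubgroup X} (hA : Stable G A) (hB : Stable G B) (hmin : IsMinimalPair G A B) :
    (∀ v ∈ B, l • v ∈ A) ∧ ∀ g : G, ∀ v ∈ B, D χ g v ∈ A := by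
  classical
  obtain ⟨hlt, hmin⟩ := hmin
  -- the quadratic relation for all `g` on the layers
  have hlayer : ∀ k, ∀ g : G, ∀ v ∈ C.Y k, D χ g v ∈ C.Y (k + 1) := fun k =>
    quad_all_of_frobenius χ
      { A := C.Y (k + 1), B := C.Y k, hA := C.stable (k + 1), hB := C.stable k,
        hl := C.l_smul k } Φ (C.quad k) hgen
  -- the induced filtration of `B / A`
  let E : ℕ → AddSubgroup X := fun k => (B ⊓ C.Y k) ⊔ A
  have hEst : ∀ k, Stable G (E k) := by
    intro k g v hv
    obtain ⟨w, hw, a, ha, rfl⟩ := AddSubgroup.mem_sup.mp hv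
    rw [smul_add]
    exact AddSubgroup.mem_sup.mpr
      ⟨g • w, ⟨hB g w hw.1, C.stable k g w hw.2⟩, g • a, hA g a ha, rfl⟩
  have hAE : ∀ k, A ≤ E k := fun k => le_sup_right
  have hEB : ∀ k, E k ≤ B := fun k => sup_le inf_le_left hlt.le
  have hE0 : E 0 = B := by
    show (B ⊓ C.Y 0) ⊔ A = B
    rw [C.top, inf_top_eq]
    exact sup_eq_left.mpr hlt.le
  have hEs : E C.s = A := by
    show (B ⊓ C.Y C.s) ⊔ A = A
    rw [C.bot, inf_bot_eq, bot_sup_eq]
  have hex : ∃ k, E k = A := ⟨C.s, hEs⟩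
  have hk1 : Nat.find hex ≠ 0 := by
    intro h0
    have := Nat.find_spec hex
    rw [h0, hE0] at this
    exact hlt.ne this.symm
  obtain ⟨k, hk⟩ := Nat.exists_eq_succ_of_ne_zero hk1
  have hEk1 : E (k + 1) = A := by
    have := Nat.find_spec hex
    rwa [hk] at this
  have hEk : E k = B := by
    have hne : E k ≠ A := Nat.find_min hex (by omega)
    exact (hmin (E k) (hEst k) (hAE k) (hEB k)).resolve_left hne
  have hsub : ∀ w, w ∈ B → w ∈ C.Y (k + 1) → w ∈ A := by
    intro w hwB hwY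
    have : w ∈ E (k + 1) := AddSubgroup.mem_sup_left ⟨hwB, hwY⟩
    rwa [hEk1] at this
  have hdecomp : ∀ v ∈ B, ∃ w ∈ B ⊓ C.Y k, ∃ a ∈ A, w + a = v := by
    intro v hv
    rw [← hEk] at hv
    exact AddSubgroup.mem_sup.mp hv
  refine ⟨fun v hv => ?_, fun g v hv => ?_⟩
  · obtain ⟨w, hw, a, ha, rfl⟩ := hdecomp v hv
    rw [nsmul_add]
    exact A.add_mem (hsub _ (B.nsmul_mem hw.1 _) (C.l_smul k w hw.2)) (A.nsmul_mem ha _)
  · obtain ⟨w, hw, a, ha, rfl⟩ := hdecomp v hv
    rw [D_add]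
    exact A.add_mem (hsub _ (D_mem χ hB g hw.1) (hlayer k g w hw.2)) (D_mem χ hA g ha)

/-- **The filtration**: from every `G`-stable `A` there is a chain of `G`-stable subgroups up to
`⊤` with steps of index `l` on which `G` acts trivially or through `χ`. -/
theorem exists_chain_from {Φ : Set G} (C : Coarse (X := X) χ Φ)
    (hgen : ∀ g : G, ∃ φ ∈ Φ, ∃ j : ℕ, (∀ v : X, g • v = φ ^ j • v) ∧ χ g = χ φ ^ j)
    (A : AddSubgroup X) (hA : Stable G A) :
    ∃ (m : ℕ) (F : ℕ → AddSubgroup X), F 0 = A ∧ F m = ⊤ ∧ (∀ i, F i ≤ F (i + 1)) ∧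
      (∀ i, Stable G (F i)) ∧
      ∀ i < m, (F i).relIndex (F (i + 1)) = l ∧
        ((∀ g : G, ∀ v ∈ F (i + 1), g • v - v ∈ F i) ∨
          (∀ g : G, ∀ v ∈ F (i + 1), g • v - (χ g).val • v ∈ F i)) := by
  classical
  induction A using WellFoundedGT.induction with
  | ind A ih =>
    by_cases htop : A = ⊤
    · exact ⟨0, fun _ => ⊤, htop.symm, rfl, fun _ => le_rfl, fun _ => stable_top,
        fun i hi => absurd hi (Nat.not_lt_zero i)⟩
    · -- a minimal stable subgroup above `A`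
      let T : Set (AddSubgroup X) := {B | Stable G B ∧ A < B}
      have hT : T.Nonempty := ⟨⊤, stable_top, lt_top_iff_ne_top.mpr htop⟩
      obtain ⟨B, hBmin⟩ := Set.Finite.exists_minimal (Set.toFinite T) hT
      obtain ⟨hBst, hAB⟩ := hBmin.prop
      have hmin : IsMinimalPair G A B := by
        refine ⟨hAB, fun C' hC' hAC hCB => ?_⟩
        by_cases hCA : C' = A
        · exact Or.inl hCA
        · right
          have hAC' : A < C' := lt_of_le_of_ne hAC (Ne.symm hCA)
          exact le_antisymm hCB (hBmin.le_of_le ⟨hC', hAC'⟩ hCB)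
      obtain ⟨hlq, hq⟩ := pair_quad C hgen hA hBst hmin
      have hstep : A.relIndex B = l ∧
          ((∀ g : G, ∀ v ∈ B, g • v - v ∈ A) ∨
            (∀ g : G, ∀ v ∈ B, g • v - (χ g).val • v ∈ A)) :=
        step χ { A := A, B := B, hA := hA, hB := hBst, hl := hlq } hmin hq
      obtain ⟨m', F', hF0, hFm, hmono, hst, hsteps⟩ := ih B hAB hBst
      refine ⟨m' + 1, fun i => Nat.casesOn i A F', rfl, hFm, ?_, ?_, ?_⟩
      · intro i
        cases i with
        | zero => show A ≤ F' 0; rw [hF0]; exact hAB.le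
        | succ n => exact hmono n
      · intro i
        cases i with
        | zero => exact hA
        | succ n => exact hst n
      · intro i hi
        cases i with
        | zero =>
          show A.relIndex (F' 0) = l ∧
            ((∀ g : G, ∀ v ∈ F' 0, g • v - v ∈ A) ∨
              (∀ g : G, ∀ v ∈ F' 0, g • v - (χ g).val • v ∈ A))
          rw [hF0]
          exact hstep
        | succ n => exact hsteps n (by omega)

/-- **CONST, main statement** (chain from `⊥`). -/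
theorem exists_chain {Φ : Set G} (C : Coarse (X := X) χ Φ)
    (hgen : ∀ g : G, ∃ φ ∈ Φ, ∃ j : ℕ, (∀ v : X, g • v = φ ^ j • v) ∧ χ g = χ φ ^ j) :
    ∃ (m : ℕ) (F : ℕ → AddSubgroup X), F 0 = ⊥ ∧ F m = ⊤ ∧ (∀ i, F i ≤ F (i + 1)) ∧
      (∀ i, Stable G (F i)) ∧
      ∀ i < m, (F i).relIndex (F (i + 1)) = l ∧
        ((∀ g : G, ∀ v ∈ F (i + 1), g • v - v ∈ F i) ∨
          (∀ g : G, ∀ v ∈ F (i + 1), g • v - (χ g).val • v ∈ F i)) :=
  exists_chain_from C hgen ⊥ stable_bot

end Chain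

end Fermat.Agent.MZ.CONST.Chain9
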