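/-
Programme MZ (S15), chapter CONST (helper9): **the concrete filtration of `G_P[l^r]`**.

`N` a level, `D` the excluded primes of the Hecke ring `R N D`, `P` an ideal of `R N D` containing `l`
and all `T_q - (q + 1)` (an Eisenstein ideal of residue characteristic `l`).  Then the Galois module
`G := GP P (l ^ r) ⊆ J₀(N)[l^r]` has a filtration `⊥ = F 0 ≤ F 1 ≤ … ≤ F m = G` by Galois-stable
subgroups with steps of index `l` on which `G_ℚ` acts trivially or through the mod-`l` cyclotomic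
character (`g v ≡ cycloExp l g • v`).

Inputs: `Chain9.exists_chain` (abstract), the `P`-adic filtration `IdemD5.Yk`, the Frobenius relation
`IdemD5.frob_quad`, the generator form of Chebotarev `ChebQbar23.exists_frobenius_pow_eq_on`, the open
stabilisers `OpenStab12.hasLevel_finite`, `DetInertia7.frobenius_apply` (Frobenius on `μ_l`).
-/
import Mathlib
import Fermat.Agent.MZ.CONST.Chain9
import Fermat.Agent.MZ.HECKE.IdemD5
import Fermat.Agent.ES.GAL.ChebQbar23
import Fermat.Agent.ES.GAL.OpenStab12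
import Fermat.Agent.ORD.ALG.DetInertia7
import Fermat.Agent.S14.Fields

set_option autoImplicit false
set_option linter.unusedSectionVars false
set_option linter.style.longLine false
set_option linter.style.haveILetI false

namespace Fermat.Agent.MZ.CONST.GrChain9

open AlgebraicCurve ModularCurve
open Fermat.Agent.MZ.HECKE.RingD5 Fermat.Agent.MZ.HECKE.IdemD5
open Fermat.Agent.MP.HECKE.EsComm5
open Fermat.Agent.MZ.CONST.SubQuot9 Fermat.Agent.MZ.CONST.Chain9

local notation "Qbar" => AlgebraicClosure ℚ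
local notation "GQ" => (AlgebraicClosure ℚ ≃ₐ[ℚ] AlgebraicClosure ℚ)

noncomputable section

/-- the mod-`l` cyclotomic character with values in `ZMod l`. -/
def chiZ (l : ℕ) [Fact l.Prime] : GQ →* ZMod l :=
  (Units.coeHom (ZMod l)).comp (ExtCitation.cycloChar l)

theorem chiZ_val (l : ℕ) [Fact l.Prime] (g : GQ) : (chiZ l g).val = ExtCitation.cycloExp l g := rfl

theorem chiZ_eq_natCast (l : ℕ) [Fact l.Prime] {g : GQ} {a : ℕ}
    (ha : ∀ ζ : Qbar, ζ ^ l = 1 → g ζ = ζ ^ a) : chiZ l g = (a : ZMod l) := by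
  have : NeZero l := ⟨(Fact.out : l.Prime).ne_zero⟩
  show ((ExtCitation.cycloChar l g : (ZMod l)ˣ) : ZMod l) = (a : ZMod l)
  symm
  apply modularCyclotomicCharacter.unique Qbar (ExtCitation.card_rootsOfUnity_eq_self l)
  intro t ht
  have ht' : (t : Qbar) ^ l = 1 := by
    have := (mem_rootsOfUnity l t).1 ht
    rw [← Units.val_pow_eq_pow_val, this, Units.val_one]
  have h1 := ha t ht'
  have h2 : (t : Qbar) ^ a = (t : Qbar) ^ (a : ZMod l).val := by
    rw [ZMod.val_natCast]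
    conv_lhs => rw [← Nat.div_add_mod a l, pow_add, pow_mul, ht', one_pow, one_mul]
  rw [← h2]
  exact h1

variable {N : ℕ} [NeZero N] {D : ℕ}

/-- the Frobenius elements at the primes not dividing `N * D * l`. -/
def frobSet (N D l : ℕ) : Set GQ :=
  {φ | ∃ (q : ℕ) (A : ValuationSubring Qbar), q.Prime ∧ ¬ q ∣ N * D ∧ q ≠ l ∧
    A.LiesOverPrime q ∧ A.IsFrobeniusAt φ q}

/-- **generator form of Chebotarev** for a finite set of points of `J₀(N)` and `μ_l`. -/
theorem exists_frob_pow (hD : D ≠ 0) (l : ℕ) [Fact l.Prime] (T : Set (JZero N)) (hT : T.Finite)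
    (g : GQ) :
    ∃ φ ∈ frobSet N D l, ∃ j : ℕ, (∀ v ∈ T, g • v = φ ^ j • v) ∧ chiZ l g = chiZ l φ ^ j := by
  classical
  obtain ⟨L, hL, H⟩ := Fermat.Agent.ES.GAL.OpenStab12.hasLevel_finite N T hT
  obtain ⟨ζ, hζ⟩ := Fermat.Agent.S14.Fields.exists_zeta l
  have hl0 : l ≠ 0 := (Fact.out : l.Prime).ne_zero
  have hζint : IsIntegral ℚ ζ := (hζ.isIntegral (Nat.pos_of_ne_zero hl0)).tower_top
  haveI : FiniteDimensional ℚ L := hL
  haveI : FiniteDimensional ℚ (IntermediateField.adjoin ℚ {ζ}) :=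
    IntermediateField.adjoin.finiteDimensional hζint
  set L' : IntermediateField ℚ Qbar := L ⊔ IntermediateField.adjoin ℚ {ζ} with hL'
  haveI : FiniteDimensional ℚ L' := IntermediateField.finiteDimensional_sup _ _
  obtain ⟨q, A, φ, j, hq, hqT, hA, hφ, hj⟩ :=
    Fermat.Agent.ES.GAL.ChebQbar23.exists_frobenius_pow_eq_on L' g
      ((N * D * l).primeFactors ∪ {l})
  have hql : q ≠ l := by
    rintro rfl
    exact hqT (Finset.mem_union_right _ (Finset.mem_singleton_self _))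
  have hqND : ¬ q ∣ N * D := by
    intro hdvd
    have hne : N * D * l ≠ 0 :=
      Nat.mul_ne_zero (Nat.mul_ne_zero (NeZero.ne N) hD) hl0
    exact hqT (Finset.mem_union_left _
      (Nat.mem_primeFactors.mpr ⟨hq, hdvd.mul_right l, hne⟩))
  refine ⟨φ, ⟨q, A, hq, hqND, hql, hA, hφ⟩, j, fun v hv => ?_, ?_⟩
  · -- `(φ ^ j)⁻¹ * g` fixes `L`
    have hfix : ∀ a ∈ L, ((φ ^ j)⁻¹ * g) a = a := by
      intro a ha
      rw [AlgEquiv.mul_apply, ← hj a (le_sup_left (a := L) ha)]
      exact (φ ^ j).symm_apply_apply a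
    have := H _ hfix v hv
    rw [mul_smul, inv_smul_eq_iff] at this
    exact this
  · -- the cyclotomic character
    have hζL : ζ ∈ L' :=
      le_sup_right (a := L) (IntermediateField.subset_adjoin ℚ {ζ} (Set.mem_singleton ζ))
    have : NeZero l := ⟨hl0⟩
    rw [← map_pow]
    have h1 : chiZ l (φ ^ j) = ((ExtCitation.cycloExp l (φ ^ j) : ℕ) : ZMod l) := by
      rw [← chiZ_val, ZMod.natCast_zmod_val]
    rw [h1]
    apply chiZ_eq_natCast
    intro t ht
    obtain ⟨i, -, rfl⟩ := hζ.eq_pow_of_pow_eq_one ht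
    rw [map_pow, ← hj ζ hζL, Fermat.Agent.S14.Fields.apply_eq_pow_cycloExp l (φ ^ j) hζ.pow_eq_one,
      ← pow_mul, ← pow_mul, mul_comm]

/-! ### the concrete chain -/

variable (P : Ideal (R N D)) (l : ℕ) [Fact l.Prime]

/-- `G_P[m]` as an additive subgroup. -/
abbrev GPa (m : ℕ) : AddSubgroup (JZero N) := (GP P m).toAddSubgroup

theorem stable_GPa (m : ℕ) : Stable GQ (GPa P m) := fun σ _ hx => smul_mem_GP σ hx

theorem chiZ_frob {q : ℕ} (hq : q.Prime) (hql : q ≠ l) {A : ValuationSubring Qbar}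
    (hA : A.LiesOverPrime q) {φ : GQ} (hφ : A.IsFrobeniusAt φ q) : chiZ l φ = (q : ZMod l) :=
  chiZ_eq_natCast l fun _ hζ =>
    Fermat.Agent.ORD.ALG.DetInertia7.frobenius_apply l hq hql A hA hφ hζ

/-- `c ≡ q mod l` and `l ∈ P` ⟹ `c - q ∈ P` in the Hecke ring. -/
theorem natCast_sub_mem (hlP : ((l : ℕ) : R N D) ∈ P) {c q : ℕ}
    (h : (c : ZMod l) = (q : ZMod l)) : ((c : ℕ) : R N D) - ((q : ℕ) : R N D) ∈ P := by
  have h1 : ((c : ℤ) : ZMod l) = ((q : ℤ) : ZMod l) := by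
    rw [Int.cast_natCast, Int.cast_natCast, h]
  rw [ZMod.intCast_eq_intCast_iff_dvd_sub] at h1
  obtain ⟨k, hk⟩ := h1
  have h2 : ((c : ℕ) : R N D) - ((q : ℕ) : R N D) = -(((l : ℕ) : R N D) * ((k : ℤ) : R N D)) := by
    have h3 : (((q : ℤ) - (c : ℤ) : ℤ) : R N D) = (((l : ℤ) * k : ℤ) : R N D) := by rw [hk]
    push_cast at h3
    rw [← h3]
    ring
  rw [h2]
  exact P.neg_mem (P.mul_mem_right _ hlP)

/-- **CONST, concrete form**: the filtration of `G_P[l^r]`. -/
theorem exists_chain_GP (hD : D ≠ 0) (hlP : ((l : ℕ) : R N D) ∈ P)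
    (hEis : ∀ (q : Nat.Primes) (hq : ¬ (q : ℕ) ∣ N * D),
      Tq N D q hq - (((q : ℕ) : R N D) + 1) ∈ P) (r : ℕ) :
    ∃ (m : ℕ) (F : ℕ → AddSubgroup (JZero N)), F 0 = ⊥ ∧ F m = GPa P (l ^ r) ∧
      (∀ i, F i ≤ F (i + 1)) ∧ (∀ i, ∀ σ : GQ, ∀ x ∈ F i, σ • x ∈ F i) ∧
      ∀ i < m, (F i).relIndex (F (i + 1)) = l ∧
        ((∀ g : GQ, ∀ v ∈ F (i + 1), g • v - v ∈ F i) ∨
          (∀ g : GQ, ∀ v ∈ F (i + 1), g • v - ExtCitation.cycloExp l g • v ∈ F i)) := by
  classical
  have hl : l.Prime := Fact.out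
  haveI : NeZero (l ^ r) := ⟨pow_ne_zero r hl.ne_zero⟩
  set B : AddSubgroup (JZero N) := GPa P (l ^ r) with hB
  have hBst : Stable GQ B := stable_GPa P (l ^ r)
  letI : DistribMulAction GQ ↥B := subAct B hBst
  have hsmul : ∀ (σ : GQ) (x : ↥B), ((σ • x : ↥B) : JZero N) = σ • (x : JZero N) := fun _ _ => rfl
  haveI : Finite ↥B := finite_GP P (l ^ r)
  -- the coarse filtration
  obtain ⟨s, hs⟩ := exists_Yk_eq_bot P (l ^ r)
  let Y : ℕ → AddSubgroup ↥B := fun k => ((Yk P (l ^ r) k).toAddSubgroup).addSubgroupOf B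
  have hYmem : ∀ k (v : ↥B), v ∈ Y k ↔ (v : JZero N) ∈ Yk P (l ^ r) k := fun k v =>
    AddSubgroup.mem_addSubgroupOf
  have hquad : ∀ k, ∀ φ ∈ frobSet N D l, ∀ v ∈ Y k, Chain9.D (chiZ l) φ v ∈ Y (k + 1) := by
    rintro k φ ⟨q, A, hq, hqND, hql, hA, hφ⟩ v hv
    rw [hYmem] at hv ⊢
    have hvm : (l ^ r) • (v : JZero N) = 0 := v.2.1
    have hqm : ¬ q ∣ l ^ r := fun h =>
      hql ((Nat.prime_dvd_prime_iff_eq hq hl).mp (hq.dvd_of_dvd_pow h))
    have hfq := frob_quad hq hqND hA hqm hvm hφ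
    set c : ℕ := (chiZ l φ).val with hc
    have hcq : (c : ZMod l) = (q : ZMod l) := by
      rw [hc, ZMod.natCast_zmod_val, chiZ_frob l hq hql hA hφ]
    have hcP : ((c : ℕ) : R N D) - ((q : ℕ) : R N D) ∈ P := natCast_sub_mem P l hlP hcq
    have hTP : Tq N D ⟨q, hq⟩ hqND - (((c : ℕ) : R N D) + 1) ∈ P := by
      have : Tq N D ⟨q, hq⟩ hqND - (((c : ℕ) : R N D) + 1) =
          (Tq N D ⟨q, hq⟩ hqND - (((q : ℕ) : R N D) + 1)) - (((c : ℕ) : R N D) - ((q : ℕ) : R N D)) := by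
        ring
      rw [this]
      exact P.sub_mem (hEis ⟨q, hq⟩ hqND) hcP
    have hφv : φ • (v : JZero N) ∈ Yk P (l ^ r) k := smul_mem_Yk φ hv
    have key : ((Chain9.D (chiZ l) φ v : ↥B) : JZero N) =
        (Tq N D ⟨q, hq⟩ hqND - (((c : ℕ) : R N D) + 1)) • (φ • (v : JZero N)) +
          (((c : ℕ) : R N D) - ((q : ℕ) : R N D)) • (v : JZero N) := by
      have h1 : ((Chain9.D (chiZ l) φ v : ↥B) : JZero N) =
          φ • (φ • (v : JZero N) - c • (v : JZero N)) - (φ • (v : JZero N) - c • (v : JZero N)) := rfl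
      rw [h1, sub_smul, sub_smul, add_smul, natCast_smul, natCast_smul, natCast_smul, one_smul,
        gal_smul_sub, gal_smul_nsmul]
      have h2 : φ • φ • (v : JZero N) =
          Tq N D ⟨q, hq⟩ hqND • (φ • (v : JZero N)) - q • (v : JZero N) := by
        rw [eq_sub_iff_add_eq, ← sub_eq_zero, ← hfq]
        abel
      rw [h2]
      abel
    rw [key]
    exact Submodule.add_mem _ (smul_mem_Yk_succ hTP hφv) (smul_mem_Yk_succ hcP hv)
  let C : Coarse (X := ↥B) (chiZ l) (frobSet N D l) :=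
    { s := s
      Y := Y
      top := by
        rw [eq_top_iff]
        intro v _
        rw [hYmem, Yk_zero]
        exact v.2
      bot := by
        rw [eq_bot_iff]
        intro v hv
        rw [hYmem, hs] at hv
        rw [AddSubgroup.mem_bot]
        exact Subtype.ext ((Submodule.mem_bot _).mp hv)
      anti := fun k v hv => by
        rw [hYmem] at hv ⊢
        exact Yk_antitone P (l ^ r) (Nat.le_succ k) hv
      stable := fun k σ v hv => by
        rw [hYmem] at hv ⊢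
        rw [hsmul]
        exact smul_mem_Yk σ hv
      l_smul := fun k v hv => by
        rw [hYmem] at hv ⊢
        rw [AddSubgroup.coe_nsmul, ← natCast_smul (N := N) (D := D)]
        exact smul_mem_Yk_succ hlP hv
      quad := hquad }
  have hgen : ∀ g : GQ, ∃ φ ∈ frobSet N D l, ∃ j : ℕ,
      (∀ v : ↥B, g • v = φ ^ j • v) ∧ chiZ l g = chiZ l φ ^ j := by
    intro g
    have hfin : (B : Set (JZero N)).Finite := Set.toFinite _
    obtain ⟨φ, hφ, j, hj, hχ⟩ := exists_frob_pow (N := N) (D := D) hD l (B : Set (JZero N)) hfin g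
    exact ⟨φ, hφ, j, fun v => Subtype.ext (hj v v.2), hχ⟩
  obtain ⟨m, F, hF0, hFm, hmono, hst, hsteps⟩ := exists_chain C hgen
  refine ⟨m, fun i => (F i).map B.subtype, ?_, ?_, fun i => AddSubgroup.map_mono (hmono i),
    fun i σ x hx => ?_, fun i hi => ?_⟩
  · show (F 0).map B.subtype = ⊥
    rw [hF0, AddSubgroup.map_bot]
  · show (F m).map B.subtype = B
    rw [hFm, ← AddMonoidHom.range_eq_map, AddSubgroup.range_subtype]
  · obtain ⟨y, hy, rfl⟩ := hx
    exact ⟨σ • y, hst i σ y hy, rfl⟩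
  · obtain ⟨hidx, hact⟩ := hsteps i hi
    refine ⟨?_, ?_⟩
    · show ((F i).map B.subtype).relIndex ((F (i + 1)).map B.subtype) = l
      rw [AddSubgroup.relIndex_map_map_of_injective _ _ (AddSubgroup.subtype_injective B)]
      exact hidx
    · rcases hact with h | h
      · left
        rintro g _ ⟨y, hy, rfl⟩
        exact ⟨g • y - y, h g y hy, rfl⟩
      · right
        rintro g _ ⟨y, hy, rfl⟩
        refine ⟨g • y - (chiZ l g).val • y, h g y hy, ?_⟩
        rw [chiZ_val]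
        rfl

end

end Fermat.Agent.MZ.CONST.GrChain9
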